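import Mathlib
import Fermat.Prelude.Def_ModularCurve_IgusaScheme
import Fermat.Prelude.Def_ModularCurve_JqCoeff

/-!
# S18 / CH0 (copy of helper989 S28 B1 file): elements of the middle chart have `ℓ`-integral `q`-expansions

Route-independent proof (no arithmetic input, no hypothesis `ℓ ∤ N`):
`OO = {f ∈ ℚ((q)) : all coefficients in ℤ_(ℓ)}` is "completely integrally closed" inside `ℚ((q))`
in the following sense: if `d ≠ 0` and `d * x ^ k ∈ OO` for all `k` then `x ∈ OO`
(leading-term argument).  Every element of the function field is a quotient of elements of `OO`,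
and an integral quotient `x = a / b` satisfies `b ^ n * x ^ k ∈ OO` for all `k`.
(helper989)
-/

set_option autoImplicit false
open ModularCurve ModularCurve.IgusaScheme
noncomputable section

namespace Fermat.Agent.S18.CH0989


/-- membership in `ℤ_(ℓ)` through the `ℓ`-adic valuation. -/
theorem mem_ratLocalizedAt_iff (ℓ : ℕ) [Fact ℓ.Prime] {q : ℚ} (_hq : q ≠ 0) :
    q ∈ GaloisRep.ratLocalizedAt ℓ ↔ 0 ≤ padicValRat ℓ q := by
  have hℓ : ℓ.Prime := Fact.out
  show q.den.Coprime ℓ ↔ _
  rw [padicValRat]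
  constructor
  · intro h
    have h1 : ¬ ℓ ∣ q.den := fun hd => by
      have := (Nat.Prime.coprime_iff_not_dvd hℓ).mp h.symm
      exact this hd
    rw [padicValNat.eq_zero_of_not_dvd h1]
    simp
  · intro h
    by_contra hc
    have h1 : ℓ ∣ q.den := by
      by_contra hd
      exact hc ((Nat.Prime.coprime_iff_not_dvd hℓ).mpr hd).symm
    have h2 : ¬ (ℓ : ℤ) ∣ q.num := by
      intro hn
      have hn' : ℓ ∣ q.num.natAbs := Int.natCast_dvd.mp hn
      have := Nat.dvd_gcd hn' h1
      rw [q.reduced] at this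
      exact hℓ.one_lt.ne' (Nat.dvd_one.mp this)
    rw [padicValInt.eq_zero_of_not_dvd h2] at h
    have h3 : 1 ≤ padicValNat ℓ q.den := one_le_padicValNat_of_dvd (Rat.den_ne_zero q) h1
    have : (1 : ℤ) ≤ (padicValNat ℓ q.den : ℤ) := by exact_mod_cast h3
    rw [Nat.cast_zero, zero_sub] at h
    have h5 : (padicValNat ℓ q.den : ℤ) ≤ 0 := by linarith
    omega

theorem mem_ratLocalizedAt_of_forall_pow (ℓ : ℕ) [Fact ℓ.Prime] {s r : ℚ} (hs : s ≠ 0)
    (h : ∀ k : ℕ, s * r ^ k ∈ GaloisRep.ratLocalizedAt ℓ) : r ∈ GaloisRep.ratLocalizedAt ℓ := by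
  by_cases hr : r = 0
  · rw [hr]; exact Subring.zero_mem _
  by_contra hc
  have hv : padicValRat ℓ r < 0 := by
    by_contra hv
    exact hc ((mem_ratLocalizedAt_iff ℓ hr).mpr (not_lt.mp hv))
  have hk := h ((padicValRat ℓ s).toNat + 1)
  rw [mem_ratLocalizedAt_iff ℓ (mul_ne_zero hs (pow_ne_zero _ hr)),
    padicValRat.mul hs (pow_ne_zero _ hr), padicValRat.pow r] at hk
  have h1 : padicValRat ℓ s ≤ ((padicValRat ℓ s).toNat : ℤ) := Int.self_le_toNat _
  have h2 : (((padicValRat ℓ s).toNat + 1 : ℕ) : ℤ) * padicValRat ℓ r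
      ≤ -(((padicValRat ℓ s).toNat + 1 : ℕ) : ℤ) := by
    have : padicValRat ℓ r ≤ -1 := by omega
    nlinarith [Int.natCast_nonneg ((padicValRat ℓ s).toNat + 1)]
  push_cast at h2 hk
  omega



/-- Laurent series over `ℚ` all of whose coefficients lie in a subring `R`. -/
def coeffSubring (R : Subring ℚ) : Subring (LaurentSeries ℚ) where
  carrier := {f | ∀ m : ℤ, f.coeff m ∈ R}
  mul_mem' {a b} ha hb m := by
    rw [HahnSeries.coeff_mul]
    exact Subring.sum_mem _ fun ij _ => Subring.mul_mem _ (ha _) (hb _)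
  one_mem' m := by
    rw [HahnSeries.coeff_one]
    split_ifs
    · exact Subring.one_mem _
    · exact Subring.zero_mem _
  add_mem' {a b} ha hb m := by
    rw [HahnSeries.coeff_add]
    exact Subring.add_mem _ (ha m) (hb m)
  zero_mem' m := by
    rw [HahnSeries.coeff_zero]
    exact Subring.zero_mem _
  neg_mem' {a} ha m := by
    rw [HahnSeries.coeff_neg]
    exact Subring.neg_mem _ (ha m)

theorem mem_coeffSubring {R : Subring ℚ} {f : LaurentSeries ℚ} :
    f ∈ coeffSubring R ↔ ∀ m : ℤ, f.coeff m ∈ R := Iff.rfl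

/-- Leading-term lemma: an "almost integral" Laurent series has coefficients in `R`. -/
theorem mem_coeffSubring_of_forall_pow (R : Subring ℚ)
    (hR : ∀ s r : ℚ, s ≠ 0 → (∀ k : ℕ, s * r ^ k ∈ R) → r ∈ R)
    {x d : LaurentSeries ℚ} (hd0 : d ≠ 0)
    (h : ∀ k : ℕ, d * x ^ k ∈ coeffSubring R) : x ∈ coeffSubring R := by
  classical
  by_contra hx
  have hS : {m : ℤ | x.coeff m ∉ R}.Nonempty := by
    by_contra hS
    rw [Set.not_nonempty_iff_eq_empty] at hS
    apply hx
    intro m
    by_contra hm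
    have : m ∈ {m : ℤ | x.coeff m ∉ R} := hm
    rw [hS] at this
    exact this
  have hsub : {m : ℤ | x.coeff m ∉ R} ⊆ x.support := by
    intro m hm
    rw [HahnSeries.mem_support]
    intro h0
    exact hm (h0 ▸ Subring.zero_mem _)
  have hwf : {m : ℤ | x.coeff m ∉ R}.IsWF := (x.isWF_support).mono hsub
  set m₀ := hwf.min hS with hm₀
  have hm₀mem : x.coeff m₀ ∉ R := hwf.min_mem hS
  have hmin : ∀ m, m < m₀ → x.coeff m ∈ R := by
    intro m hm
    by_contra hc
    exact hwf.not_lt_min hS hc hm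
  set y := HahnSeries.truncLT m₀ x with hy
  have hyR : y ∈ coeffSubring R := by
    intro m
    rw [hy, HahnSeries.coeff_truncLT]
    split_ifs with hlt
    · exact hmin m hlt
    · exact Subring.zero_mem _
  set z := x - y with hz
  have hz_lt : ∀ m, m < m₀ → z.coeff m = 0 := by
    intro m hm
    rw [hz, HahnSeries.coeff_sub, hy, HahnSeries.coeff_truncLT_of_lt hm, sub_self]
  have hz_m₀ : z.coeff m₀ = x.coeff m₀ := by
    rw [hz, HahnSeries.coeff_sub, hy, HahnSeries.coeff_truncLT_of_le le_rfl, sub_zero]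
  have hx0 : x.coeff m₀ ≠ 0 := fun h0 => hm₀mem (h0 ▸ Subring.zero_mem _)
  have hz0 : z ≠ 0 := by
    intro h0
    rw [h0, HahnSeries.coeff_zero] at hz_m₀
    exact hx0 hz_m₀.symm
  have hzord : z.order = m₀ := by
    apply le_antisymm
    · exact HahnSeries.order_le_of_coeff_ne_zero (by rw [hz_m₀]; exact hx0)
    · by_contra hlt
      exact hz0 (HahnSeries.coeff_order_eq_zero.mp (hz_lt _ (not_le.mp hlt)))
  have hzlead : z.leadingCoeff = x.coeff m₀ := by
    rw [HahnSeries.leadingCoeff_eq, hzord, hz_m₀]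
  -- `d * x^j * z^k ∈ OO`
  have hdz : ∀ k j : ℕ, d * x ^ j * z ^ k ∈ coeffSubring R := by
    intro k
    induction k with
    | zero => intro j; simpa using h j
    | succ k ih =>
      intro j
      have e : d * x ^ j * z ^ (k + 1) = d * x ^ (j + 1) * z ^ k - y * (d * x ^ j * z ^ k) := by
        rw [hz]; ring
      rw [e]
      exact Subring.sub_mem _ (ih (j + 1)) (Subring.mul_mem _ hyR (ih j))
  have hpow : ∀ k : ℕ, (z ^ k).leadingCoeff = z.leadingCoeff ^ k := by
    intro k
    induction k with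
    | zero => simp
    | succ k ih => rw [pow_succ, HahnSeries.leadingCoeff_mul, ih, pow_succ]
  have hlead : ∀ k : ℕ, d.leadingCoeff * (x.coeff m₀) ^ k ∈ R := by
    intro k
    have h1 := hdz k 0
    rw [pow_zero, mul_one] at h1
    have h2 : (d * z ^ k).leadingCoeff = d.leadingCoeff * (x.coeff m₀) ^ k := by
      rw [HahnSeries.leadingCoeff_mul, ← hzlead, hpow]
    rw [← h2, HahnSeries.leadingCoeff_eq]
    exact h1 _
  exact hm₀mem (hR _ _ (HahnSeries.leadingCoeff_ne_zero.mpr hd0) hlead)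






/-- Integral + fraction of elements of `OO` implies "almost integral". -/
theorem exists_forall_pow_mem (R : Subring ℚ) {x a b : LaurentSeries ℚ}
    (ha : a ∈ coeffSubring R) (hb : b ∈ coeffSubring R) (hb0 : b ≠ 0) (hxb : x * b = a)
    (p : Polynomial (coeffSubring R)) (hp : p.Monic)
    (hpx : Polynomial.eval₂ (coeffSubring R).subtype x p = 0) :
    ∃ d : LaurentSeries ℚ, d ≠ 0 ∧ ∀ k : ℕ, d * x ^ k ∈ coeffSubring R := by
  classical
  refine ⟨b ^ p.natDegree, pow_ne_zero _ hb0, fun k => ?_⟩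
  have hp1 : p ≠ 1 := by
    rintro rfl
    rw [Polynomial.eval₂_one] at hpx
    exact one_ne_zero hpx
  set r := (Polynomial.X ^ k : Polynomial (coeffSubring R)) %ₘ p with hr
  have hdeg : r.natDegree < p.natDegree := Polynomial.natDegree_modByMonic_lt _ hp hp1
  have hxk : x ^ k = Polynomial.eval₂ (coeffSubring R).subtype x r := by
    have h1 := Polynomial.modByMonic_add_div (Polynomial.X ^ k : Polynomial (coeffSubring R)) p
    have h2 := congrArg (Polynomial.eval₂ (coeffSubring R).subtype x) h1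
    rw [Polynomial.eval₂_add, Polynomial.eval₂_mul, hpx, zero_mul, add_zero,
      Polynomial.eval₂_pow, Polynomial.eval₂_X] at h2
    exact h2.symm
  rw [hxk, Polynomial.eval₂_eq_sum_range, Finset.mul_sum]
  refine Subring.sum_mem _ fun i hi => ?_
  have hi' : i ≤ r.natDegree := Nat.lt_succ_iff.mp (Finset.mem_range.mp hi)
  have hin : i ≤ p.natDegree := by omega
  have e : b ^ p.natDegree * ((coeffSubring R).subtype (r.coeff i) * x ^ i)
      = (r.coeff i : LaurentSeries ℚ) * (b ^ (p.natDegree - i) * a ^ i) := by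
    rw [← hxb, mul_pow, ← Nat.sub_add_cancel hin, pow_add, Nat.add_sub_cancel]
    simp only [Subring.subtype_apply]
    ring
  rw [e]
  exact Subring.mul_mem _ (r.coeff i).2 (Subring.mul_mem _ (Subring.pow_mem _ hb _)
    (Subring.pow_mem _ ha _))

/-- `q`-expansions of `j(q^d)` have integer coefficients. -/
theorem qExpand_jq_mem_coeffSubring (R : Subring ℚ) (d : ℕ) [NeZero d] :
    qExpand ℚ d jq ∈ coeffSubring R := by
  intro m
  by_cases hm : (d : ℤ) ∣ m
  · obtain ⟨k, rfl⟩ := hm
    rw [qExpand_coeff_mul, ← jqModC_rat, jqModC_eq_map_intCast, HahnSeries.map_coeff]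
    exact intCast_mem _ _
  · rw [qExpand_coeff_of_not_dvd d _ hm]
    exact Subring.zero_mem _

/-- Every element of the function field is a quotient of two Laurent series with coefficients
in `R`. -/
theorem exists_frac_of_mem_full (R : Subring ℚ) (N : ℕ) [NeZero N] {x : LaurentSeries ℚ}
    (hx : x ∈ modularFunctionFieldFull N) :
    ∃ a b : LaurentSeries ℚ, a ∈ coeffSubring R ∧ b ∈ coeffSubring R ∧ b ≠ 0 ∧ x * b = a := by
  unfold modularFunctionFieldFull at hx
  induction hx using IntermediateField.adjoin_induction with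
  | mem x hx =>
    obtain ⟨d, hd, -, rfl⟩ := hx
    exact ⟨_, 1, qExpand_jq_mem_coeffSubring R d, Subring.one_mem _, one_ne_zero, mul_one _⟩
  | algebraMap r =>
    refine ⟨HahnSeries.C (r.num : ℚ), HahnSeries.C (r.den : ℚ), ?_, ?_, ?_, ?_⟩
    · intro m
      rw [HahnSeries.C_apply, HahnSeries.coeff_single]
      split_ifs
      · exact intCast_mem _ _
      · exact Subring.zero_mem _
    · intro m
      rw [HahnSeries.C_apply, HahnSeries.coeff_single]
      split_ifs
      · exact natCast_mem _ _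
      · exact Subring.zero_mem _
    · intro h
      rw [HahnSeries.C_apply] at h
      have h1 := congrArg (fun f : LaurentSeries ℚ => f.coeff 0) h
      simp only [HahnSeries.coeff_single_same, HahnSeries.coeff_zero] at h1
      exact (Nat.cast_ne_zero.mpr (Rat.den_ne_zero r)) h1
    · rw [algebraMap_apply_eq_single, HahnSeries.C_apply, HahnSeries.C_apply,
        HahnSeries.single_mul_single, zero_add, Rat.mul_den_eq_num]
  | add x y _ _ hx hy =>
    obtain ⟨a, b, ha, hb, hb0, hab⟩ := hx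
    obtain ⟨a', b', ha', hb', hb0', hab'⟩ := hy
    refine ⟨a * b' + a' * b, b * b', Subring.add_mem _ (Subring.mul_mem _ ha hb')
      (Subring.mul_mem _ ha' hb), Subring.mul_mem _ hb hb', mul_ne_zero hb0 hb0', ?_⟩
    rw [← hab, ← hab']; ring
  | inv x _ hx =>
    obtain ⟨a, b, ha, hb, hb0, hab⟩ := hx
    by_cases ha0 : a = 0
    · have hx0 : x = 0 := by
        rw [ha0] at hab
        exact (mul_eq_zero.mp hab).resolve_right hb0
      exact ⟨0, 1, Subring.zero_mem _, Subring.one_mem _, one_ne_zero, by rw [hx0]; simp⟩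
    · have hx0 : x ≠ 0 := by
        rintro rfl
        rw [zero_mul] at hab
        exact ha0 hab.symm
      refine ⟨b, a, hb, ha, ha0, ?_⟩
      rw [← hab]
      field_simp
  | mul x y _ _ hx hy =>
    obtain ⟨a, b, ha, hb, hb0, hab⟩ := hx
    obtain ⟨a', b', ha', hb', hb0', hab'⟩ := hy
    refine ⟨a * a', b * b', Subring.mul_mem _ ha ha', Subring.mul_mem _ hb hb',
      mul_ne_zero hb0 hb0', ?_⟩
    rw [← hab, ← hab']; ring





theorem jq_mem_coeffSubring (R : Subring ℚ) : jq ∈ coeffSubring R := by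
  have h := qExpand_jq_mem_coeffSubring R 1
  rwa [qExpand_one_apply] at h

/-- the inverse of `j` has integer coefficients. -/
theorem jq_inv_mem_coeffSubring (R : Subring ℚ) : jq⁻¹ ∈ coeffSubring R := by
  have hinv : jq⁻¹ = HahnSeries.single (1 : ℤ) (1 : ℚ) *
      HahnSeries.ofPowerSeries ℤ ℚ ((jNum.invOfUnit 1).map (Int.castRingHom ℚ)) := by
    rw [inv_eq_iff_eq_inv]
    symm
    apply inv_eq_of_mul_eq_one_left
    have h1 : HahnSeries.single (-1 : ℤ) (1 : ℚ) * HahnSeries.single (1 : ℤ) (1 : ℚ) = 1 := by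
      rw [HahnSeries.single_mul_single]
      simp
    have h2 : HahnSeries.ofPowerSeries ℤ ℚ (PowerSeries.map (Int.castRingHom ℚ) jNum) *
        HahnSeries.ofPowerSeries ℤ ℚ (PowerSeries.map (Int.castRingHom ℚ) (jNum.invOfUnit 1))
          = 1 := by
      rw [← map_mul (HahnSeries.ofPowerSeries ℤ ℚ), ← map_mul (PowerSeries.map (Int.castRingHom ℚ)),
        PowerSeries.mul_invOfUnit _ _ (by rw [constantCoeff_jNum]; rfl), map_one, map_one]
    rw [jq, jNumQ,
      show HahnSeries.single (-1 : ℤ) (1 : ℚ) * HahnSeries.ofPowerSeries ℤ ℚ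
            (PowerSeries.map (Int.castRingHom ℚ) jNum) *
          (HahnSeries.single (1 : ℤ) (1 : ℚ) * HahnSeries.ofPowerSeries ℤ ℚ
            (PowerSeries.map (Int.castRingHom ℚ) (jNum.invOfUnit 1))) =
        (HahnSeries.single (-1 : ℤ) (1 : ℚ) * HahnSeries.single (1 : ℤ) (1 : ℚ)) *
          (HahnSeries.ofPowerSeries ℤ ℚ (PowerSeries.map (Int.castRingHom ℚ) jNum) *
            HahnSeries.ofPowerSeries ℤ ℚ
              (PowerSeries.map (Int.castRingHom ℚ) (jNum.invOfUnit 1))) by ring,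
      h1, h2, mul_one]
  rw [hinv]
  intro m
  rw [HahnSeries.coeff_single_mul, one_mul]
  rcases le_or_gt 0 (m - 1) with hk | hk
  · obtain ⟨n, hn⟩ := Int.eq_ofNat_of_zero_le hk
    rw [hn, HahnSeries.ofPowerSeries_apply_coeff, PowerSeries.coeff_map]
    exact intCast_mem _ _
  · rw [ofPowerSeries_coeff_of_neg _ hk]
    exact Subring.zero_mem _


/-- Elements of `ℤ_(ℓ)[j, 1/j]` have coefficients in `ℤ_(ℓ)`. -/
theorem coe_mem_coeffSubring_of_mem_adjoin (N : ℕ) [NeZero N] (ℓ : ℕ) [Fact ℓ.Prime]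
    {t : ↥(modularFunctionFieldFull N)}
    (ht : t ∈ Algebra.adjoin ↥(GaloisRep.ratLocalizedAt ℓ)
      ({jFull N, (jFull N)⁻¹} : Set ↥(modularFunctionFieldFull N))) :
    (t : LaurentSeries ℚ) ∈ coeffSubring (GaloisRep.ratLocalizedAt ℓ) := by
  induction ht using Algebra.adjoin_induction with
  | mem y hy =>
    rcases hy with rfl | rfl
    · exact jq_mem_coeffSubring _
    · exact jq_inv_mem_coeffSubring _
  | algebraMap r =>
    have e : ((algebraMap ↥(GaloisRep.ratLocalizedAt ℓ) ↥(modularFunctionFieldFull N) r :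
        ↥(modularFunctionFieldFull N)) : LaurentSeries ℚ) =
        algebraMap ℚ (LaurentSeries ℚ) (r : ℚ) := by
      rw [RingHom.algebraMap_toAlgebra, RingHom.comp_apply,
        Algebra.algebraMap_ofSubsemiring_apply,
        eq_ratCast (algebraMap ℚ ↥(modularFunctionFieldFull N)) (r : ℚ),
        eq_ratCast (algebraMap ℚ (LaurentSeries ℚ)) (r : ℚ)]
      exact SubfieldClass.coe_ratCast (modularFunctionFieldFull N) (r : ℚ)
    rw [e, algebraMap_apply_eq_single]
    intro m
    rw [HahnSeries.coeff_single]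
    split_ifs
    · exact r.2
    · exact Subring.zero_mem _
  | add y z _ _ hy hz => exact Subring.add_mem _ hy hz
  | mul y z _ _ hy hz => exact Subring.mul_mem _ hy hz

/-- (B1) Elements of the middle chart (hence of all three charts) have `ℓ`-integral
`q`-expansions.  No hypothesis on `ℓ` and `N` is needed. -/
theorem chartAlgMid_coeff_mem (N : ℕ) [NeZero N] (ℓ : ℕ) [Fact ℓ.Prime] :
    ∀ x ∈ chartAlgMid N ℓ, ∀ m : ℤ,
      ((x : ↥(modularFunctionFieldFull N)) : LaurentSeries ℚ).coeff m ∈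
        GaloisRep.ratLocalizedAt ℓ := by
  intro x hx
  obtain ⟨P, hPm, hPx⟩ := (mem_chartAlg_iff N ℓ).mp hx
  set OO := coeffSubring (GaloisRep.ratLocalizedAt ℓ) with hOO
  -- the ring hom `ℤ_(ℓ)[j, 1/j] → OO`
  let φ : ↥(Algebra.adjoin ↥(GaloisRep.ratLocalizedAt ℓ)
      ({jFull N, (jFull N)⁻¹} : Set ↥(modularFunctionFieldFull N))) →+* LaurentSeries ℚ :=
    (algebraMap ↥(modularFunctionFieldFull N) (LaurentSeries ℚ)).comp
      (algebraMap _ ↥(modularFunctionFieldFull N))
  have hφ : ∀ t, φ t ∈ OO := fun t => coe_mem_coeffSubring_of_mem_adjoin N ℓ t.2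
  let g := φ.codRestrict OO hφ
  have hg : OO.subtype.comp g = φ := RingHom.ext fun t => rfl
  have hroot : Polynomial.eval₂ OO.subtype (x : LaurentSeries ℚ) (P.map g) = 0 := by
    rw [Polynomial.eval₂_map, hg]
    have h := congrArg (algebraMap ↥(modularFunctionFieldFull N) (LaurentSeries ℚ)) hPx
    rw [Polynomial.hom_eval₂, map_zero] at h
    exact h
  obtain ⟨a, b, ha, hb, hb0, hab⟩ :=
    exists_frac_of_mem_full (GaloisRep.ratLocalizedAt ℓ) N x.2
  obtain ⟨d, hd0, hd⟩ := exists_forall_pow_mem (GaloisRep.ratLocalizedAt ℓ) ha hb hb0 hab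
    (P.map g) (hPm.map g) hroot
  exact mem_coeffSubring_of_forall_pow (GaloisRep.ratLocalizedAt ℓ)
    (fun s r hs h => mem_ratLocalizedAt_of_forall_pow ℓ hs h) hd0 hd

end Fermat.Agent.S18.CH0989
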