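import Mathlib
import Fermat.Prelude.Def_ModularCurve_LaurentCoeff

/-!
# S18 / CH0 (D1), abstract part (helper989): integral closure commutes with the base change `ℚ → ℚ̄`

`L` an algebraic closure of `ℚ`, `ι = coeffEmb L : ℚ((q)) → L((q))`.
`descent`: if `f` lies in the `L`-span of `ι V` (`V` a `ℚ`-subspace of `ℚ((q))`) and is integral
over `L[ι S]`, then `f` lies in the `L`-span of `ι {g ∈ V : g integral over ℚ[S]}`.

Proof: write `f = ∑ b_k ι(g_k)` with `b` a `ℚ`-basis of a number field `L' ⊆ L`; the conjugates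
`∑ σ(b_k) ι(g_k)` (`σ : L' → L`) are integral over `L[ι S]` (apply a lift of `σ` coefficientwise),
the matrix `(σ_j(b_k))` is invertible (discriminant), so every `ι(g_k)` is integral over `L[ι S]`,
hence (transitivity, `L[ι S]` is integral over `ι ℚ[S]`) `g_k` is integral over `ℚ[S]`.
-/

set_option autoImplicit false

open ModularCurve Polynomial

noncomputable section

namespace Fermat.Agent.S18.CH0989

variable {L : Type*} [Field L] [Algebra ℚ L]

/-- any ring endomorphism of `L` fixes `coeffEmb`. -/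
theorem coeffMap_coeffEmb' (σ : L →+* L) (x : LaurentSeries ℚ) :
    coeffMap σ (coeffEmb L x) = coeffEmb L x := by
  rw [coeffEmb, coeffMap_coeffMap]
  exact coeffMap_congr (Subsingleton.elim _ _) x

theorem coeffEmb_algebraMap (q : ℚ) :
    coeffEmb L (algebraMap ℚ (LaurentSeries ℚ) q)
      = algebraMap L (LaurentSeries L) (algebraMap ℚ L q) := by
  rw [algebraMap_laurentSeries_eq_single, algebraMap_laurentSeries_eq_single, coeffEmb,
    coeffMap_single]

omit [Algebra ℚ L] in
theorem smul_eq_algebraMap_mul (c : L) (y : LaurentSeries L) :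
    c • y = algebraMap L (LaurentSeries L) c * y := by
  rw [algebraMap_laurentSeries_eq_single, ← HahnSeries.C_apply, HahnSeries.C_mul_eq_smul]

theorem coeffEmb_smul (q : ℚ) (v : LaurentSeries ℚ) :
    coeffEmb L (q • v) = algebraMap L (LaurentSeries L) (algebraMap ℚ L q) * coeffEmb L v := by
  rw [← smul_eq_algebraMap_mul]
  ext m
  rw [coeffEmb_coeff, HahnSeries.coeff_smul, HahnSeries.coeff_smul, coeffEmb_coeff, smul_eq_mul,
    smul_eq_mul, map_mul]

/-- `coeffMap σ` preserves `L[ι S]`. -/
theorem coeffMap_mem_adjoin (σ : L →+* L) (S : Set (LaurentSeries ℚ)) {x : LaurentSeries L}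
    (hx : x ∈ Algebra.adjoin L (coeffEmb L '' S)) :
    coeffMap σ x ∈ Algebra.adjoin L (coeffEmb L '' S) := by
  induction hx using Algebra.adjoin_induction with
  | mem y hy =>
    obtain ⟨s, hs, rfl⟩ := hy
    rw [coeffMap_coeffEmb']
    exact Algebra.subset_adjoin ⟨s, hs, rfl⟩
  | algebraMap c =>
    rw [coeffMap_algebraMap]
    exact Subalgebra.algebraMap_mem _ _
  | add y z _ _ hy hz => rw [map_add]; exact Subalgebra.add_mem _ hy hz
  | mul y z _ _ hy hz => rw [map_mul]; exact Subalgebra.mul_mem _ hy hz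

theorem isIntegral_coeffMap (σ : L →+* L) (S : Set (LaurentSeries ℚ)) {f : LaurentSeries L}
    (hf : IsIntegral (Algebra.adjoin L (coeffEmb L '' S)) f) :
    IsIntegral (Algebra.adjoin L (coeffEmb L '' S)) (coeffMap σ f) := by
  let φ : Algebra.adjoin L (coeffEmb L '' S) →+* Algebra.adjoin L (coeffEmb L '' S) :=
    ((coeffMap σ).comp (Algebra.adjoin L (coeffEmb L '' S)).val.toRingHom).codRestrict
      (Algebra.adjoin L (coeffEmb L '' S)) (fun x => coeffMap_mem_adjoin σ S x.2)
  exact hf.map_of_comp_eq φ (coeffMap σ) (by ext x; rfl)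

/-- descent of integrality along `coeffEmb`. -/
theorem isIntegral_of_coeffEmb [Algebra.IsAlgebraic ℚ L] (S : Set (LaurentSeries ℚ))
    {g : LaurentSeries ℚ}
    (hg : IsIntegral (Algebra.adjoin L (coeffEmb L '' S)) (coeffEmb L g)) :
    IsIntegral (Algebra.adjoin ℚ S) g := by
  let φ : Algebra.adjoin ℚ S →+* LaurentSeries L :=
    (coeffEmb L).comp (Algebra.adjoin ℚ S).val.toRingHom
  let algR : Algebra (Algebra.adjoin ℚ S) (LaurentSeries L) := φ.toAlgebra
  -- every element of `L[ι S]` is integral over `ℚ[S]`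
  have h1 : ∀ y ∈ Algebra.adjoin L (coeffEmb L '' S), IsIntegral (Algebra.adjoin ℚ S) y := by
    intro y hy
    induction hy using Algebra.adjoin_induction with
    | mem y hy =>
      obtain ⟨s, hs, rfl⟩ := hy
      exact isIntegral_algebraMap (x := (⟨s, Algebra.subset_adjoin hs⟩ : Algebra.adjoin ℚ S))
    | algebraMap c =>
      obtain ⟨p, hp, hpc⟩ := (Algebra.IsAlgebraic.isAlgebraic (R := ℚ) c).isIntegral
      refine ⟨p.map (algebraMap ℚ (Algebra.adjoin ℚ S)), hp.map _, ?_⟩
      rw [eval₂_map]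
      have : (algebraMap (Algebra.adjoin ℚ S) (LaurentSeries L)).comp
          (algebraMap ℚ (Algebra.adjoin ℚ S))
          = (algebraMap L (LaurentSeries L)).comp (algebraMap ℚ L) := Subsingleton.elim _ _
      rw [this, ← hom_eval₂, hpc, map_zero]
    | add y z _ _ hy hz => exact hy.add hz
    | mul y z _ _ hy hz => exact hy.mul hz
  -- transitivity
  have h2 : IsIntegral (Algebra.adjoin ℚ S) (coeffEmb L g) := by
    let incl : Algebra.adjoin L (coeffEmb L '' S) →+*
        integralClosure (Algebra.adjoin ℚ S) (LaurentSeries L) :=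
      ((Algebra.adjoin L (coeffEmb L '' S)).val.toRingHom).codRestrict
        (integralClosure (Algebra.adjoin ℚ S) (LaurentSeries L)) (fun y => h1 y y.2)
    have h3 : IsIntegral (integralClosure (Algebra.adjoin ℚ S) (LaurentSeries L))
        (coeffEmb L g) := by
      have := IsIntegral.map_of_comp_eq
        (T := integralClosure (Algebra.adjoin ℚ S) (LaurentSeries L)) (U := LaurentSeries L)
        incl (RingHom.id (LaurentSeries L)) (by ext y; rfl) hg
      simpa using this
    have h4 : coeffEmb L g ∈ integralClosure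
        (integralClosure (Algebra.adjoin ℚ S) (LaurentSeries L)) (LaurentSeries L) := h3
    rw [integralClosure_idem, Algebra.mem_bot] at h4
    obtain ⟨y, hy⟩ := h4
    rw [← hy]
    exact y.2
  -- pull back along the injective `coeffEmb`
  obtain ⟨p, hp, hpg⟩ := h2
  refine ⟨p, hp, ?_⟩
  have h5 : eval₂ (algebraMap (Algebra.adjoin ℚ S) (LaurentSeries L)) (coeffEmb L g) p
      = coeffEmb L (eval₂ (algebraMap (Algebra.adjoin ℚ S) (LaurentSeries ℚ)) g p) := by
    rw [hom_eval₂]; rfl
  rw [h5] at hpg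
  exact (map_eq_zero_iff _ (coeffEmb L).injective).1 hpg

/-- Conjugates of a finite family of algebraic numbers: coordinates in a basis `β` of a finite
subextension and an invertible matrix of conjugates of `β`. -/
theorem exists_conj_matrix {K₀ E : Type*} [Field K₀] [Field E] [Algebra K₀ E] [IsAlgClosed E]
    [Algebra.IsAlgebraic K₀ E] [CharZero K₀] {n : ℕ} (c : Fin n → E) :
    ∃ (d : ℕ) (β : Fin d → E) (q : Fin n → Fin d → K₀) (σ : Fin d → (E →ₐ[K₀] E)),
      (∀ i, c i = ∑ k, algebraMap K₀ E (q i k) * β k) ∧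
      (Matrix.of fun k j => σ j (β k)).det ≠ 0 := by
  classical
  have : IsAlgClosure K₀ E := ⟨inferInstance, inferInstance⟩
  let E' : IntermediateField K₀ E := IntermediateField.adjoin K₀ (Set.range c)
  have : FiniteDimensional K₀ E' :=
    IntermediateField.finiteDimensional_adjoin
      (fun x _ => (Algebra.IsAlgebraic.isAlgebraic (R := K₀) x).isIntegral)
  let b := Module.finBasis K₀ E'
  have hcard : Fintype.card (E' →ₐ[K₀] E) = Module.finrank K₀ E' := AlgHom.card K₀ E' E
  let e : Fin (Module.finrank K₀ E') ≃ (E' →ₐ[K₀] E) := (Fintype.equivFinOfCardEq hcard).symm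
  refine ⟨Module.finrank K₀ E', fun k => (b k : E),
    fun i k => b.repr ⟨c i, IntermediateField.subset_adjoin K₀ _ ⟨i, rfl⟩⟩ k,
    fun j => (e j).liftNormal E, ?_, ?_⟩
  · intro i
    have h1 := b.sum_repr ⟨c i, IntermediateField.subset_adjoin K₀ _ ⟨i, rfl⟩⟩
    have h2 : (((∑ k, (b.repr ⟨c i, IntermediateField.subset_adjoin K₀ _ ⟨i, rfl⟩⟩) k • b k :
        E')) : E) = c i := congrArg Subtype.val h1
    rw [← h2, IntermediateField.coe_sum]
    refine Finset.sum_congr rfl fun k _ => ?_
    rw [IntermediateField.coe_smul, Algebra.smul_def]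
  · have h1 := Algebra.discr_eq_det_embeddingsMatrixReindex_pow_two K₀ E b e
    have h2 := Algebra.discr_not_zero_of_basis K₀ b
    have h3 : (Matrix.of fun k j => ((e j).liftNormal E) (b k : E))
        = Algebra.embeddingsMatrixReindex K₀ E b e := by
      ext k j
      exact AlgHom.liftNormal_commutes (e j) E (b k)
    rw [h3]
    intro h0
    rw [h0] at h1
    simp only [ne_eq, OfNat.ofNat_ne_zero, not_false_eq_true, zero_pow, map_eq_zero] at h1
    exact h2 h1

/-- **Galois descent of integrality.**  If `f` lies in the `L`-span of `ι V` and is integral over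
`L[ι S]`, then `f` lies in the `L`-span of `ι {g ∈ V : g integral over ℚ[S]}`. -/
theorem descent [IsAlgClosed L] [Algebra.IsAlgebraic ℚ L] (V : Set (LaurentSeries ℚ))
    (hV0 : (0 : LaurentSeries ℚ) ∈ V) (hVadd : ∀ a ∈ V, ∀ b ∈ V, a + b ∈ V)
    (hVsmul : ∀ (r : ℚ), ∀ a ∈ V, algebraMap ℚ (LaurentSeries ℚ) r * a ∈ V)
    (S : Set (LaurentSeries ℚ)) {f : LaurentSeries L}
    (hf : f ∈ Submodule.span L (coeffEmb L '' V))
    (hint : IsIntegral (Algebra.adjoin L (coeffEmb L '' S)) f) :
    f ∈ Submodule.span L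
      (coeffEmb L '' {g | g ∈ V ∧ IsIntegral (Algebra.adjoin ℚ S) g}) := by
  classical
  -- Step 1: a finite expression
  obtain ⟨n, c, w, hw⟩ := Submodule.mem_span_set'.1 hf
  choose v hvV hv using fun i => (w i).2
  obtain ⟨d, β, q, σ, hc, hdet⟩ := exists_conj_matrix (K₀ := ℚ) c
  obtain ⟨g', hg'⟩ : ∃ g' : Fin d → LaurentSeries ℚ,
      ∀ k, g' k = ∑ i, algebraMap ℚ (LaurentSeries ℚ) (q i k) * v i :=
    ⟨_, fun _ => rfl⟩
  have hsum : ∀ (s : Finset (Fin n)) (k : Fin d),
      ∑ i ∈ s, algebraMap ℚ (LaurentSeries ℚ) (q i k) * v i ∈ V := by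
    intro s k
    induction s using Finset.induction_on with
    | empty => rw [Finset.sum_empty]; exact hV0
    | insert a s ha ih =>
      rw [Finset.sum_insert ha]
      exact hVadd _ (hVsmul _ _ (hvV a)) _ ih
  have hg'V : ∀ k, g' k ∈ V := fun k => by
    rw [hg']
    exact hsum _ k
  obtain ⟨y, hy0⟩ : ∃ y : Fin d → LaurentSeries L, ∀ k, y k = coeffEmb L (g' k) :=
    ⟨_, fun _ => rfl⟩
  have hy : ∀ k, y k = ∑ i, algebraMap L (LaurentSeries L) (algebraMap ℚ L (q i k)) *
      coeffEmb L (v i) := by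
    intro k
    rw [hy0, hg', map_sum]
    refine Finset.sum_congr rfl fun i _ => ?_
    rw [map_mul, coeffEmb_algebraMap]
  have hfy : f = ∑ k, algebraMap L (LaurentSeries L) (β k) * y k := by
    rw [← hw]
    simp_rw [hy, Finset.mul_sum]
    rw [Finset.sum_comm]
    refine Finset.sum_congr rfl fun i _ => ?_
    rw [smul_eq_algebraMap_mul, ← hv i, hc i, map_sum, Finset.sum_mul]
    refine Finset.sum_congr rfl fun k _ => ?_
    rw [map_mul]
    ring
  obtain ⟨M, hM⟩ : ∃ M : Matrix (Fin d) (Fin d) L, M = Matrix.of fun k j => σ j (β k) :=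
    ⟨_, rfl⟩
  rw [← hM] at hdet
  have hMa : ∀ k j, M k j = σ j (β k) := fun k j => by rw [hM]; rfl
  -- the conjugates are integral
  have hF : ∀ j, IsIntegral (Algebra.adjoin L (coeffEmb L '' S))
      (∑ k, algebraMap L (LaurentSeries L) (M k j) * y k) := by
    intro j
    have h1 := isIntegral_coeffMap (σ j : L →+* L) S hint
    have h2 : coeffMap (σ j : L →+* L) f
        = ∑ k, algebraMap L (LaurentSeries L) (M k j) * y k := by
      rw [hfy, map_sum]
      refine Finset.sum_congr rfl fun k _ => ?_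
      rw [map_mul, hy0, coeffMap_coeffEmb', hMa, coeffMap_algebraMap]
      rfl
    rw [← h2]
    exact h1
  -- invert the matrix
  have hMM : M * M⁻¹ = 1 := Matrix.mul_nonsing_inv M (isUnit_iff_ne_zero.mpr hdet)
  have hinv : ∀ k, y k = ∑ j, algebraMap L (LaurentSeries L) (M⁻¹ j k) *
      (∑ k', algebraMap L (LaurentSeries L) (M k' j) * y k') := by
    intro k
    simp_rw [Finset.mul_sum]
    rw [Finset.sum_comm]
    have h1 : ∀ k', ∑ j, algebraMap L (LaurentSeries L) (M⁻¹ j k) *
        (algebraMap L (LaurentSeries L) (M k' j) * y k')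
        = algebraMap L (LaurentSeries L) ((M * M⁻¹) k' k) * y k' := by
      intro k'
      rw [Matrix.mul_apply, map_sum, Finset.sum_mul]
      refine Finset.sum_congr rfl fun j _ => ?_
      rw [map_mul]
      ring
    simp_rw [h1, hMM, Matrix.one_apply]
    simp
  have hyint : ∀ k, IsIntegral (Algebra.adjoin L (coeffEmb L '' S)) (y k) := by
    intro k
    rw [hinv k]
    refine IsIntegral.sum _ fun j _ => ?_
    refine IsIntegral.mul ?_ (hF j)
    exact isIntegral_algebraMap
      (x := (⟨_, Subalgebra.algebraMap_mem _ (M⁻¹ j k)⟩ : Algebra.adjoin L (coeffEmb L '' S)))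
  have hg'int : ∀ k, IsIntegral (Algebra.adjoin ℚ S) (g' k) :=
    fun k => isIntegral_of_coeffEmb S (by rw [← hy0]; exact hyint k)
  rw [hfy]
  refine Submodule.sum_mem _ fun k _ => ?_
  rw [← smul_eq_algebraMap_mul, hy0]
  exact Submodule.smul_mem _ _ (Submodule.subset_span ⟨g' k, ⟨hg'V k, hg'int k⟩, rfl⟩)

/-- Every element of the base-changed field `L·F₀` is an `L`-linear combination of elements of
`F₀` (constants are algebraic over `F₀`). -/
theorem mem_span_of_mem_laurentBaseChange [Algebra.IsAlgebraic ℚ L]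
    (F₀ : IntermediateField ℚ (LaurentSeries ℚ)) {x : LaurentSeries L}
    (hx : x ∈ laurentBaseChange L F₀) :
    x ∈ Submodule.span L (coeffEmb L '' (F₀ : Set (LaurentSeries ℚ))) := by
  classical
  -- the subfield `ι F₀`
  let K₁ : Subfield (LaurentSeries L) := F₀.toSubfield.map (coeffEmb L)
  have hK₁ : ∀ z, z ∈ K₁ ↔ z ∈ coeffEmb L '' (F₀ : Set (LaurentSeries ℚ)) := fun z => Iff.rfl
  -- integrality over `K₁`
  have hint : ∀ z ∈ Algebra.adjoin L (coeffEmb L '' (F₀ : Set (LaurentSeries ℚ))),
      IsIntegral K₁ z := by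
    intro z hz
    induction hz using Algebra.adjoin_induction with
    | mem z hz => exact isIntegral_algebraMap (x := (⟨z, (hK₁ z).2 hz⟩ : K₁))
    | algebraMap c =>
      obtain ⟨p, hp, hpc⟩ := (Algebra.IsAlgebraic.isAlgebraic (R := ℚ) c).isIntegral
      let ψ : ℚ →+* K₁ :=
        ((coeffEmb L).comp (algebraMap ℚ (LaurentSeries ℚ))).codRestrict K₁
          (fun r => ⟨algebraMap ℚ _ r, F₀.algebraMap_mem r, rfl⟩)
      refine ⟨p.map ψ, hp.map _, ?_⟩
      rw [eval₂_map]
      have : (algebraMap K₁ (LaurentSeries L)).comp ψ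
          = (algebraMap L (LaurentSeries L)).comp (algebraMap ℚ L) := Subsingleton.elim _ _
      rw [this, ← hom_eval₂, hpc, map_zero]
    | add y z _ _ hy hz => exact hy.add hz
    | mul y z _ _ hy hz => exact hy.mul hz
  -- closed under inverses
  have hinv : ∀ z ∈ Algebra.adjoin L (coeffEmb L '' (F₀ : Set (LaurentSeries ℚ))),
      z⁻¹ ∈ Algebra.adjoin L (coeffEmb L '' (F₀ : Set (LaurentSeries ℚ))) := by
    intro z hz
    have h1 : z⁻¹ ∈ Algebra.adjoin K₁ {z} := (hint z hz).inv_mem_adjoin
    have h2 : ∀ w ∈ Algebra.adjoin K₁ {z},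
        w ∈ Algebra.adjoin L (coeffEmb L '' (F₀ : Set (LaurentSeries ℚ))) := by
      intro w hw
      induction hw using Algebra.adjoin_induction with
      | mem w hw =>
        rw [Set.mem_singleton_iff] at hw
        rw [hw]
        exact hz
      | algebraMap k => exact Algebra.subset_adjoin ((hK₁ _).1 k.2)
      | add a b _ _ ha hb => exact Subalgebra.add_mem _ ha hb
      | mul a b _ _ ha hb => exact Subalgebra.mul_mem _ ha hb
    exact h2 _ h1
  -- the base change is contained in the adjoin
  have hle : x ∈ Algebra.adjoin L (coeffEmb L '' (F₀ : Set (LaurentSeries ℚ))) := by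
    rw [mem_laurentBaseChange_iff] at hx
    let SF : Subfield (LaurentSeries L) :=
      { (Algebra.adjoin L (coeffEmb L '' (F₀ : Set (LaurentSeries ℚ)))).toSubring with
        inv_mem' := hinv }
    have h3 : Subfield.closure (Set.range (algebraMap L (LaurentSeries L)) ∪
        coeffEmb L '' (F₀ : Set (LaurentSeries ℚ))) ≤ SF := by
      rw [Subfield.closure_le]
      rintro w (⟨c, rfl⟩ | hw)
      · exact Subalgebra.algebraMap_mem _ c
      · exact Algebra.subset_adjoin hw
    exact h3 hx
  -- the adjoin is the span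
  have h5 : x ∈ Subalgebra.toSubmodule
      (Algebra.adjoin L (coeffEmb L '' (F₀ : Set (LaurentSeries ℚ)))) := hle
  have h4 : coeffEmb L '' (F₀ : Set (LaurentSeries ℚ))
      = ((F₀.toSubfield.toSubring.toSubmonoid.map
          ((coeffEmb L : LaurentSeries ℚ →+* LaurentSeries L) :
            LaurentSeries ℚ →* LaurentSeries L) : Submonoid (LaurentSeries L)) :
          Set (LaurentSeries L)) := rfl
  rw [Algebra.adjoin_eq_span, h4, Submonoid.closure_eq, ← h4] at h5
  refine @Submodule.span_induction L (LaurentSeries L) _ _ Algebra.toModule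
    (coeffEmb L '' (F₀ : Set (LaurentSeries ℚ)))
    (fun z _ => z ∈ Submodule.span L (coeffEmb L '' (F₀ : Set (LaurentSeries ℚ))))
    (fun z hz => Submodule.subset_span hz) (Submodule.zero_mem _)
    (fun a b _ _ ha hb => Submodule.add_mem _ ha hb) ?_ x h5
  intro c z _ hz
  have h6 : @HSMul.hSMul L (LaurentSeries L) (LaurentSeries L)
      (@instHSMul L (LaurentSeries L) Algebra.toSMul) c z
      = algebraMap L (LaurentSeries L) c * z := Algebra.smul_def c z
  rw [h6, ← smul_eq_algebraMap_mul]
  exact Submodule.smul_mem _ c hz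

end Fermat.Agent.S18.CH0989
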