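import Mathlib
import Fermat.Agent.S18.DefsMod
import Fermat.Agent.S18.CH0989.Descent
import Fermat.Agent.S18.CH0989.CoeffIntegral

/-!
# S18 / CH0 (D1) (helper989): the `ℚ̄`-span of a chart algebra is the integral closure of `ℚ̄[S]`

`intClosed_gen_fin`, `intClosed_gen_inf`: statements VERBATIM from `Fermat/Agent/S18/TInt.lean`
(origin/helper2926, acting T-architect).  No hypothesis `ℓ ∤ N` is used.
-/

set_option autoImplicit false

open ModularCurve ModularCurve.IgusaScheme Polynomial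

noncomputable section

namespace Fermat.Agent.S18.CH0989

section Clear

variable (N : ℕ) [NeZero N] (ℓ : ℕ) [Fact ℓ.Prime]

/-- clearing denominators: `ℚ[S] ⊆ ℚ·ℤ_(ℓ)[S]`. -/
theorem exists_nat_mul_mem_adjoin (S : Set ↥(modularFunctionFieldFull N)) {a : LaurentSeries ℚ}
    (ha : a ∈ Algebra.adjoin ℚ
      ((fun x : ↥(modularFunctionFieldFull N) => (x : LaurentSeries ℚ)) '' S)) :
    ∃ d : ℕ, d ≠ 0 ∧ ∃ a' ∈ Algebra.adjoin ↥(GaloisRep.ratLocalizedAt ℓ) S,
      ((a' : ↥(modularFunctionFieldFull N)) : LaurentSeries ℚ) = (d : LaurentSeries ℚ) * a := by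
  induction ha using Algebra.adjoin_induction with
  | mem y hy =>
    obtain ⟨s, hs, rfl⟩ := hy
    exact ⟨1, one_ne_zero, s, Algebra.subset_adjoin hs, by simp⟩
  | algebraMap r =>
    refine ⟨r.den, r.den_nz, ((r.num : ℤ) : ↥(modularFunctionFieldFull N)), intCast_mem _ _, ?_⟩
    have h1 : ((r.den : ℕ) : ℚ) * r = (r.num : ℚ) := by
      rw [mul_comm]; exact Rat.mul_den_eq_num r
    have h2 : algebraMap ℚ (LaurentSeries ℚ) ((r.num : ℤ) : ℚ)
        = algebraMap ℚ (LaurentSeries ℚ) ((r.den : ℕ) : ℚ) * algebraMap ℚ (LaurentSeries ℚ) r := by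
      rw [← map_mul, h1]
    rw [map_intCast, map_natCast] at h2
    rw [← h2]
    rfl
  | add y z _ _ hy hz =>
    obtain ⟨d1, hd1, a1, ha1, e1⟩ := hy
    obtain ⟨d2, hd2, a2, ha2, e2⟩ := hz
    refine ⟨d1 * d2, Nat.mul_ne_zero hd1 hd2,
      ((d2 : ℕ) : ↥(modularFunctionFieldFull N)) * a1
        + ((d1 : ℕ) : ↥(modularFunctionFieldFull N)) * a2, ?_, ?_⟩
    · exact Subalgebra.add_mem _ (Subalgebra.mul_mem _ (natCast_mem _ _) ha1)
        (Subalgebra.mul_mem _ (natCast_mem _ _) ha2)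
    · have c1 : ((((d1 : ℕ) : ↥(modularFunctionFieldFull N))) : LaurentSeries ℚ)
          = (d1 : LaurentSeries ℚ) := rfl
      have c2 : ((((d2 : ℕ) : ↥(modularFunctionFieldFull N))) : LaurentSeries ℚ)
          = (d2 : LaurentSeries ℚ) := rfl
      rw [IntermediateField.coe_add, IntermediateField.coe_mul, IntermediateField.coe_mul, e1, e2,
        c1, c2, Nat.cast_mul]
      ring
  | mul y z _ _ hy hz =>
    obtain ⟨d1, hd1, a1, ha1, e1⟩ := hy
    obtain ⟨d2, hd2, a2, ha2, e2⟩ := hz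
    refine ⟨d1 * d2, Nat.mul_ne_zero hd1 hd2, a1 * a2, Subalgebra.mul_mem _ ha1 ha2, ?_⟩
    rw [IntermediateField.coe_mul, e1, e2, Nat.cast_mul]
    ring

/-- (I2) an element of `ℚ(X₀(N))` integral over `ℚ[S]` has a nonzero integer multiple in the chart
algebra `chartAlg N ℓ S`. -/
theorem exists_nat_mul_mem_chartAlg (S : Set ↥(modularFunctionFieldFull N)) {g : LaurentSeries ℚ}
    (hg : g ∈ modularFunctionFieldFull N)
    (hint : IsIntegral (Algebra.adjoin ℚ
      ((fun x : ↥(modularFunctionFieldFull N) => (x : LaurentSeries ℚ)) '' S)) g) :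
    ∃ d : ℕ, d ≠ 0 ∧ ∃ x ∈ chartAlg N ℓ S,
      ((x : ↥(modularFunctionFieldFull N)) : LaurentSeries ℚ) = (d : LaurentSeries ℚ) * g := by
  classical
  obtain ⟨p, hp, hpg⟩ := hint
  -- denominators of the coefficients
  choose dd hdd aa haa eaa using fun i : ℕ =>
    exists_nat_mul_mem_adjoin N ℓ S (p.coeff i).2
  obtain ⟨d, hd⟩ : ∃ d : ℕ, d = ∏ i ∈ Finset.range p.natDegree, dd i := ⟨_, rfl⟩
  have hd0 : d ≠ 0 := by
    rw [hd]
    exact Finset.prod_ne_zero_iff.2 (fun i _ => hdd i)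
  -- the ring hom `ℤ_(ℓ)[S] → ℚ((q))`
  let φ : ↥(Algebra.adjoin ↥(GaloisRep.ratLocalizedAt ℓ) S) →+* LaurentSeries ℚ :=
    (algebraMap ↥(modularFunctionFieldFull N) (LaurentSeries ℚ)).comp
      (algebraMap _ ↥(modularFunctionFieldFull N))
  have hφ : ∀ a, φ a = ((a : ↥(modularFunctionFieldFull N)) : LaurentSeries ℚ) := fun a => rfl
  have hdφ : ∀ m : ℕ, φ (m : ↥(Algebra.adjoin ↥(GaloisRep.ratLocalizedAt ℓ) S))
      = (m : LaurentSeries ℚ) := fun m => map_natCast φ m
  -- `d * coeff i ∈ range φ` for `i < n`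
  have hcoef : ∀ i ∈ Finset.range p.natDegree, ∃ c : ↥(Algebra.adjoin ↥(GaloisRep.ratLocalizedAt ℓ) S),
      φ c = (d : LaurentSeries ℚ) * ((p.coeff i : Algebra.adjoin ℚ
        ((fun x : ↥(modularFunctionFieldFull N) => (x : LaurentSeries ℚ)) '' S)) :
          LaurentSeries ℚ) := by
    intro i hi
    refine ⟨((∏ j ∈ (Finset.range p.natDegree).erase i, dd j : ℕ) :
      ↥(Algebra.adjoin ↥(GaloisRep.ratLocalizedAt ℓ) S)) * ⟨aa i, haa i⟩, ?_⟩
    rw [map_mul, hdφ, hφ]
    show _ * ((aa i : ↥(modularFunctionFieldFull N)) : LaurentSeries ℚ) = _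
    rw [eaa i, hd, ← Finset.mul_prod_erase _ _ hi, Nat.cast_mul]
    ring
  -- the scaled polynomial
  obtain ⟨dq, hdq⟩ : ∃ dq : Algebra.adjoin ℚ
      ((fun x : ↥(modularFunctionFieldFull N) => (x : LaurentSeries ℚ)) '' S),
      algebraMap (Algebra.adjoin ℚ
        ((fun x : ↥(modularFunctionFieldFull N) => (x : LaurentSeries ℚ)) '' S))
        (LaurentSeries ℚ) dq = (d : LaurentSeries ℚ) :=
    ⟨⟨(d : LaurentSeries ℚ), natCast_mem _ d⟩, rfl⟩
  obtain ⟨P, hP⟩ : ∃ P : (LaurentSeries ℚ)[X], P = (p.scaleRoots dq).map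
    (algebraMap (Algebra.adjoin ℚ
      ((fun x : ↥(modularFunctionFieldFull N) => (x : LaurentSeries ℚ)) '' S)) (LaurentSeries ℚ)) :=
    ⟨_, rfl⟩
  have hPmonic : P.Monic := by
    rw [hP]
    exact ((Polynomial.monic_scaleRoots_iff dq).2 hp).map _
  have hProot : P.eval ((d : LaurentSeries ℚ) * g) = 0 := by
    rw [hP, Polynomial.eval_map, ← hdq]
    exact Polynomial.scaleRoots_eval₂_eq_zero _ hpg
  have hPlift : P ∈ Polynomial.lifts φ := by
    rw [Polynomial.lifts_iff_coeff_lifts]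
    intro i
    rw [hP, Polynomial.coeff_map, Polynomial.coeff_scaleRoots]
    rcases lt_trichotomy i p.natDegree with hi | hi | hi
    · obtain ⟨c, hc⟩ := hcoef i (Finset.mem_range.2 hi)
      refine ⟨c * ((d : ℕ) : ↥(Algebra.adjoin ↥(GaloisRep.ratLocalizedAt ℓ) S)) ^
        (p.natDegree - i - 1), ?_⟩
      obtain ⟨e, he⟩ : ∃ e : ℕ, p.natDegree - i = e + 1 := ⟨p.natDegree - i - 1, by omega⟩
      rw [map_mul, map_pow, hdφ, hc, map_mul, map_pow, hdq, he, Nat.add_sub_cancel, pow_succ]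
      have hco : algebraMap (Algebra.adjoin ℚ
          ((fun x : ↥(modularFunctionFieldFull N) => (x : LaurentSeries ℚ)) '' S))
          (LaurentSeries ℚ) (p.coeff i) = ((p.coeff i : Algebra.adjoin ℚ
        ((fun x : ↥(modularFunctionFieldFull N) => (x : LaurentSeries ℚ)) '' S)) :
          LaurentSeries ℚ) := rfl
      rw [hco]
      ring
    · refine ⟨1, ?_⟩
      rw [hi, hp.coeff_natDegree, Nat.sub_self, pow_zero, mul_one, map_one, map_one]
    · refine ⟨0, ?_⟩
      rw [Polynomial.coeff_eq_zero_of_natDegree_lt hi, zero_mul, map_zero, map_zero]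
  obtain ⟨Q, hQP, -, hQmonic⟩ := Polynomial.lifts_and_natDegree_eq_and_monic hPlift hPmonic
  -- the element
  have hdg : (d : LaurentSeries ℚ) * g ∈ modularFunctionFieldFull N :=
    (modularFunctionFieldFull N).mul_mem (natCast_mem _ d) hg
  refine ⟨d, hd0, ⟨(d : LaurentSeries ℚ) * g, hdg⟩, ?_, rfl⟩
  rw [mem_chartAlg_iff]
  refine ⟨Q, hQmonic, ?_⟩
  apply (algebraMap ↥(modularFunctionFieldFull N) (LaurentSeries ℚ)).injective
  rw [map_zero, Polynomial.hom_eval₂]
  show Polynomial.eval₂ φ ((d : LaurentSeries ℚ) * g) Q = 0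
  rw [← Polynomial.eval_map, hQP]
  exact hProot

end Clear

section Lift

/-- a Laurent series with coefficients in `A` comes from `A((q))`. -/
theorem exists_lift_of_coeff_mem {L : Type*} [Field L] (A : ValuationSubring L)
    (w : LaurentSeries L) (h : ∀ m, w.coeff m ∈ A) :
    ∃ z : LaurentSeries A, coeffMap A.subtype z = w := by
  have hsupp : Function.support (fun m => (⟨w.coeff m, h m⟩ : A)) = w.support := by
    ext m
    simp [Subtype.ext_iff]
  refine ⟨⟨fun m => ⟨w.coeff m, h m⟩, ?_⟩, ?_⟩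
  · rw [hsupp]
    exact w.isPWO_support
  · ext m
    rfl

theorem vsub_inv_mem_of_isUnit {L : Type*} [Field L] (A : ValuationSubring L) (u : A)
    (hu : IsUnit u) : (u : L)⁻¹ ∈ A := by
  obtain ⟨u, rfl⟩ := hu
  have h : ((u : A) : L) * (((u⁻¹ : Aˣ) : A) : L) = 1 := by
    rw [← MulMemClass.coe_mul, Units.mul_inv]
    rfl
  rw [inv_eq_of_mul_eq_one_right h]
  exact (((u⁻¹ : Aˣ) : A)).2

/-- `ℤ_(ℓ) ⊆ A` for a valuation subring over `ℓ`. -/
theorem ratLoc_mem {L : Type*} [Field L] [Algebra ℚ L] (ℓ : ℕ) (A : ValuationSubring L)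
    (hA : A.LiesOverPrime ℓ) {r : ℚ} (hr : r ∈ GaloisRep.ratLocalizedAt ℓ) :
    algebraMap ℚ L r ∈ A := by
  have hcop : Nat.Coprime r.den ℓ := hr
  -- `ℓ` lies in the maximal ideal
  obtain ⟨hℓA, hℓm⟩ := (ValuationSubring.mem_nonunits_iff_exists_mem_maximalIdeal (A := A)).1 hA
  -- the denominator is a unit of `A`
  have hunit : IsUnit ((r.den : ℕ) : A) := by
    by_contra hnu
    have hdm : ((r.den : ℕ) : A) ∈ IsLocalRing.maximalIdeal A := hnu
    have hbez : (1 : ℤ) = (r.den : ℤ) * Int.gcdA r.den ℓ + (ℓ : ℤ) * Int.gcdB r.den ℓ := by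
      have := Int.gcd_eq_gcd_ab (r.den : ℤ) (ℓ : ℤ)
      rw [Int.gcd_natCast_natCast, hcop.gcd_eq_one] at this
      exact_mod_cast this
    have h1 : (1 : A) = ((r.den : ℕ) : A) * ((Int.gcdA r.den ℓ : ℤ) : A)
        + (⟨(ℓ : L), hℓA⟩ : A) * ((Int.gcdB r.den ℓ : ℤ) : A) := by
      apply Subtype.ext
      have := congrArg (Int.cast (R := L)) hbez
      push_cast at this
      push_cast
      exact this
    have h2 : (1 : A) ∈ IsLocalRing.maximalIdeal A := by
      rw [h1]
      exact Ideal.add_mem _ (Ideal.mul_mem_right _ _ hdm) (Ideal.mul_mem_right _ _ hℓm)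
    exact (Ideal.ne_top_iff_one _).1 (IsLocalRing.maximalIdeal.isMaximal A).ne_top h2
  have hinv : ((r.den : ℕ) : L)⁻¹ ∈ A := by
    have := vsub_inv_mem_of_isUnit A _ hunit
    simpa using this
  have hr' : algebraMap ℚ L r = ((r.num : ℤ) : L) * ((r.den : ℕ) : L)⁻¹ := by
    have h3 : r = (r.num : ℚ) * ((r.den : ℕ) : ℚ)⁻¹ := by
      rw [← div_eq_mul_inv]; exact (Rat.num_div_den r).symm
    conv_lhs => rw [h3]
    rw [map_mul, map_inv₀, map_intCast, map_natCast]
  rw [hr']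
  exact A.mul_mem _ _ (intCast_mem A _) hinv

end Lift

section Final

variable (ℓ : ℕ) [Fact ℓ.Prime] (A : ValuationSubring (AlgebraicClosure ℚ)) (N : ℕ) [NeZero N]

/-- the `A`-action on `ℚ̄((q))` is multiplication by the constant. -/
theorem vsub_smul_eq (a : A) (z : LaurentSeries (AlgebraicClosure ℚ)) :
    a • z = algebraMap (AlgebraicClosure ℚ) (LaurentSeries (AlgebraicClosure ℚ))
      (a : AlgebraicClosure ℚ) * z := by
  rw [← smul_eq_algebraMap_mul]
  ext m
  rfl

/-- **(D1), any chart contained in the middle chart**: an element of `ℚ̄(X₀(N))` integral over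
`ℚ̄[S]` is a constant multiple of a chart-integral series over `A`. -/
theorem intClosed_gen (hA : A.LiesOverPrime ℓ) (S : Set ↥(modularFunctionFieldFull N))
    (hS : chartAlg N ℓ S ≤ chartAlgMid N ℓ)
    {f : LaurentSeries (AlgebraicClosure ℚ)} (hf : f ∈ modularFunctionFieldBar N)
    (hint : IsIntegral (Algebra.adjoin (AlgebraicClosure ℚ)
      (coeffEmb (AlgebraicClosure ℚ) ''
        ((fun x : ↥(modularFunctionFieldFull N) => (x : LaurentSeries ℚ)) '' S))) f) :
    ∃ (c : AlgebraicClosure ℚ) (y : LaurentSeries A), IsChartInt ℓ A N S y ∧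
      f = HahnSeries.C c * coeffMap A.subtype y := by
  classical
  have : Algebra.IsAlgebraic ℚ (AlgebraicClosure ℚ) := AlgebraicClosure.isAlgebraic ℚ
  -- `f` is a `ℚ̄`-combination of elements of `ℚ(X₀(N))` integral over `ℚ[S]`
  have h1 := mem_span_of_mem_laurentBaseChange (L := AlgebraicClosure ℚ)
    (modularFunctionFieldFull N) hf
  have h2 := descent (L := AlgebraicClosure ℚ)
    (modularFunctionFieldFull N : Set (LaurentSeries ℚ))
    (modularFunctionFieldFull N).zero_mem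
    (fun a ha b hb => (modularFunctionFieldFull N).add_mem ha hb)
    (fun r a ha => (modularFunctionFieldFull N).mul_mem
      ((modularFunctionFieldFull N).algebraMap_mem r) ha)
    _ h1 hint
  -- hence of elements of the chart algebra
  have h3 : f ∈ Submodule.span (AlgebraicClosure ℚ) (Set.range fun x : chartAlg N ℓ S =>
      coeffEmb (AlgebraicClosure ℚ) ((x : ↥(modularFunctionFieldFull N)) : LaurentSeries ℚ)) := by
    refine Submodule.span_le.2 ?_ h2
    rintro _ ⟨g, ⟨hgF, hgint⟩, rfl⟩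
    obtain ⟨d, hd0, x, hx, hxg⟩ := exists_nat_mul_mem_chartAlg N ℓ S hgF hgint
    have hd0' : ((d : ℕ) : AlgebraicClosure ℚ) ≠ 0 := Nat.cast_ne_zero.2 hd0
    have e1 : coeffEmb (AlgebraicClosure ℚ) g = ((d : ℕ) : AlgebraicClosure ℚ)⁻¹ •
        coeffEmb (AlgebraicClosure ℚ) ((x : ↥(modularFunctionFieldFull N)) : LaurentSeries ℚ) := by
      rw [hxg, map_mul, map_natCast, smul_eq_algebraMap_mul,
        ← map_natCast (algebraMap (AlgebraicClosure ℚ) (LaurentSeries (AlgebraicClosure ℚ))) d,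
        ← mul_assoc, ← map_mul, inv_mul_cancel₀ hd0', map_one, one_mul]
    rw [SetLike.mem_coe, e1]
    exact Submodule.smul_mem _ _ (Submodule.subset_span ⟨⟨x, hx⟩, rfl⟩)
  -- a finite expression
  obtain ⟨n, c, w, hw⟩ := Submodule.mem_span_set'.1 h3
  choose x hx using fun i => (w i).2
  by_cases hall : ∀ i, c i = 0
  · refine ⟨0, 0, ?_, ?_⟩
    · show coeffMap A.subtype 0 ∈ chartSpan ℓ A N S
      rw [map_zero]
      exact Submodule.zero_mem _
    · rw [← hw]
      simp [hall]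
  · obtain ⟨i1, hi1⟩ := not_forall.1 hall
    obtain ⟨i0, -, hi0⟩ := Finset.exists_max_image Finset.univ
      (fun i => A.valuation (c i)) ⟨i1, Finset.mem_univ _⟩
    have hc0 : c i0 ≠ 0 := by
      intro h0
      have h4 := hi0 i1 (Finset.mem_univ _)
      rw [h0, map_zero] at h4
      exact hi1 ((map_eq_zero _).1 (le_antisymm h4 zero_le))
    have hv0 : 0 < A.valuation (c i0) := by
      rw [pos_iff_ne_zero]
      exact (_root_.map_ne_zero _).2 hc0
    have ha : ∀ i, c i / c i0 ∈ A := by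
      intro i
      rw [← A.valuation_le_one_iff, map_div₀]
      exact (div_le_one₀ hv0).2 (hi0 i (Finset.mem_univ _))
    -- the normalised series
    obtain ⟨w', hw'⟩ : ∃ w' : LaurentSeries (AlgebraicClosure ℚ), w' = ∑ i,
        algebraMap (AlgebraicClosure ℚ) (LaurentSeries (AlgebraicClosure ℚ)) (c i / c i0) *
          coeffEmb (AlgebraicClosure ℚ)
            (((x i : chartAlg N ℓ S) : ↥(modularFunctionFieldFull N)) : LaurentSeries ℚ) :=
      ⟨_, rfl⟩
    have hcoeff : ∀ m, w'.coeff m ∈ A := by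
      intro m
      rw [hw', HahnSeries.coeff_sum]
      refine sum_mem fun i _ => ?_
      rw [← smul_eq_algebraMap_mul, HahnSeries.coeff_smul, coeffEmb_coeff, smul_eq_mul]
      exact A.mul_mem _ _ (ha i)
        (ratLoc_mem ℓ A hA (chartAlgMid_coeff_mem N ℓ _ (hS (x i).2) m))
    obtain ⟨y, hy⟩ := exists_lift_of_coeff_mem A w' hcoeff
    refine ⟨c i0, y, ?_, ?_⟩
    · show coeffMap A.subtype y ∈ chartSpan ℓ A N S
      rw [hy, hw']
      refine Submodule.sum_mem _ fun i _ => ?_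
      have e2 : algebraMap (AlgebraicClosure ℚ) (LaurentSeries (AlgebraicClosure ℚ)) (c i / c i0) *
          coeffEmb (AlgebraicClosure ℚ)
            (((x i : chartAlg N ℓ S) : ↥(modularFunctionFieldFull N)) : LaurentSeries ℚ)
          = (⟨c i / c i0, ha i⟩ : A) • coeffEmb (AlgebraicClosure ℚ)
            (((x i : chartAlg N ℓ S) : ↥(modularFunctionFieldFull N)) : LaurentSeries ℚ) := by
        rw [vsub_smul_eq]
      rw [e2]
      exact Submodule.smul_mem _ _ (Submodule.subset_span ⟨x i, rfl⟩)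
    · rw [hy, hw', HahnSeries.C_mul_eq_smul, smul_eq_algebraMap_mul, Finset.mul_sum, ← hw]
      refine Finset.sum_congr rfl fun i _ => ?_
      rw [smul_eq_algebraMap_mul, ← hx i, ← mul_assoc, ← map_mul, mul_div_cancel₀ _ hc0]

end Final

section Verbatim

variable {ℓ : ℕ} [Fact ℓ.Prime] {A : ValuationSubring (AlgebraicClosure ℚ)} {N : ℕ} [NeZero N]

/-- transport of integrality from `Fb N` to `ℚ̄((q))`. -/
theorem isIntegral_coe_Fb (t : Fb N) (s : ↥(modularFunctionFieldFull N))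
    (hts : (t : LaurentSeries (AlgebraicClosure ℚ))
      = coeffEmb (AlgebraicClosure ℚ) (s : LaurentSeries ℚ))
    (f : Fb N) (hf : IsIntegral (Algebra.adjoin (AlgebraicClosure ℚ) {t}) f) :
    IsIntegral (Algebra.adjoin (AlgebraicClosure ℚ)
      (coeffEmb (AlgebraicClosure ℚ) ''
        ((fun x : ↥(modularFunctionFieldFull N) => (x : LaurentSeries ℚ)) '' {s})))
      (f : LaurentSeries (AlgebraicClosure ℚ)) := by
  have key : ∀ z ∈ Algebra.adjoin (AlgebraicClosure ℚ) {t},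
      ((z : Fb N) : LaurentSeries (AlgebraicClosure ℚ)) ∈ Algebra.adjoin (AlgebraicClosure ℚ)
        (coeffEmb (AlgebraicClosure ℚ) ''
          ((fun x : ↥(modularFunctionFieldFull N) => (x : LaurentSeries ℚ)) '' {s})) := by
    intro z hz
    induction hz using Algebra.adjoin_induction with
    | mem y hy =>
      rw [Set.mem_singleton_iff] at hy
      rw [hy, hts]
      exact Algebra.subset_adjoin ⟨_, ⟨s, rfl, rfl⟩, rfl⟩
    | algebraMap c => exact Subalgebra.algebraMap_mem _ c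
    | add a b _ _ ha hb => exact Subalgebra.add_mem _ ha hb
    | mul a b _ _ ha hb => exact Subalgebra.mul_mem _ ha hb
  let φ : Algebra.adjoin (AlgebraicClosure ℚ) {t} →+* Algebra.adjoin (AlgebraicClosure ℚ)
      (coeffEmb (AlgebraicClosure ℚ) ''
        ((fun x : ↥(modularFunctionFieldFull N) => (x : LaurentSeries ℚ)) '' {s})) :=
    ((algebraMap (Fb N) (LaurentSeries (AlgebraicClosure ℚ))).comp
      (algebraMap _ (Fb N))).codRestrict _ (fun z => key z z.2)
  exact IsIntegral.map_of_comp_eq φ (algebraMap (Fb N) (LaurentSeries (AlgebraicClosure ℚ)))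
    (by ext z; rfl) hf

/-- **CH0 (D1), chart fin** (statement verbatim from `TInt.lean`, origin/helper2926): the
`ℚ̄`-span of the chart is the integral closure of `ℚ̄[j]` in `Fb N`. -/
theorem intClosed_gen_fin (hℓN : ¬ ℓ ∣ N) (hA : A.LiesOverPrime ℓ) (f : Fb N)
    (hf : IsIntegral (Algebra.adjoin (AlgebraicClosure ℚ) {jb N}) f) :
    ∃ (c : AlgebraicClosure ℚ) (y : LaurentSeries A), IsIntFin ℓ A N y ∧
      (f : LaurentSeries (AlgebraicClosure ℚ)) = HahnSeries.C c * coeffMap A.subtype y := by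
  have _ := hℓN
  exact intClosed_gen ℓ A N hA {jFull N}
    (chartAlg_mono N ℓ (fun x hx => Or.inl hx)) f.2
    (isIntegral_coe_Fb (jb N) (jFull N) rfl f hf)

/-- **CH0 (D1), chart inf** (statement verbatim from `TInt.lean`, origin/helper2926): the
`ℚ̄`-span of the chart is the integral closure of `ℚ̄[1/j]` in `Fb N`. -/
theorem intClosed_gen_inf (hℓN : ¬ ℓ ∣ N) (hA : A.LiesOverPrime ℓ) (f : Fb N)
    (hf : IsIntegral (Algebra.adjoin (AlgebraicClosure ℚ) {(jb N)⁻¹}) f) :
    ∃ (c : AlgebraicClosure ℚ) (y : LaurentSeries A), IsIntInf ℓ A N y ∧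
      (f : LaurentSeries (AlgebraicClosure ℚ)) = HahnSeries.C c * coeffMap A.subtype y := by
  have _ := hℓN
  refine intClosed_gen ℓ A N hA {(jFull N)⁻¹}
    (chartAlg_mono N ℓ (fun x hx => Or.inr hx)) f.2
    (isIntegral_coe_Fb (jb N)⁻¹ (jFull N)⁻¹ ?_ f hf)
  show ((jb N : LaurentSeries (AlgebraicClosure ℚ)))⁻¹
    = coeffEmb (AlgebraicClosure ℚ) ((jFull N : LaurentSeries ℚ))⁻¹
  rw [map_inv₀]
  rfl

end Verbatim

end Fermat.Agent.S18.CH0989
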